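import Mathlib
import Fermat.Agent.LT.T7.H193.ProjSpec

/-!
# Row LT, tower T7, node T7.L2.1 `SupplyC`, sub-station PROJ, leaf P03 `FinIndexC` (helper981)

OFF-MAIN.  `finIndexC981 (K) : H193.FinIndexC K`, VERBATIM against `LT/T7/H193/ProjSpec.lean`
(sha256 977a85e3, helper193@812840e55).  Imports: Mathlib + the spec closure only.

Route (reduction modulo `𝔑`, no compactness): an element of `𝒪_v` is congruent modulo `𝔑 𝒪_v`
to an element of `𝓞 K` (density + `𝔑 𝒪_v` open), so its class has a LABEL in the finite ring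
`𝓞 K ⧸ 𝔑`; two integral matrices with the same labels at the primes dividing `𝔑` are congruent
modulo `𝔑 𝒪_v` at every finite place (`𝔑 𝒪_v = 𝒪_v` outside `𝔑`), and
`τ⁻¹ h - 1 = τ⁻¹ (h - τ)`, `(τ⁻¹ h)⁻¹ - 1 = h⁻¹ (τ - h)`.
-/

set_option autoImplicit false

open IsDedekindDomain NumberField

noncomputable section

namespace Fermat.Agent.LT.T7.H981

open Fermat.Agent.LT.H556 Fermat.Agent.LT.H556.A0 Fermat.Agent.LT

variable {K : Type} [Field K] [NumberField K]

/-! ## 1. Local facts on `𝔑 𝒪_v` -/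

/-- The map `𝓞 K → K_v`. -/
abbrev toC981 (v : HeightOneSpectrum (𝓞 K)) (x : 𝓞 K) : v.adicCompletion K :=
  algebraMap K (v.adicCompletion K) (algebraMap (𝓞 K) K x)

theorem valued_algebraMap981 (v : HeightOneSpectrum (𝓞 K)) (y : K) :
    Valued.v (algebraMap K (v.adicCompletion K) y) = v.valuation K y :=
  HeightOneSpectrum.valuedAdicCompletion_eq_valuation' v y

theorem valued_toC981 (v : HeightOneSpectrum (𝓞 K)) (x : 𝓞 K) :
    Valued.v (toC981 v x) = v.intValuation x := by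
  rw [toC981, valued_algebraMap981, HeightOneSpectrum.valuation_of_algebraMap]

theorem toC981_mem_integers (v : HeightOneSpectrum (𝓞 K)) (x : 𝓞 K) :
    toC981 v x ∈ v.adicCompletionIntegers K := by
  rw [HeightOneSpectrum.mem_adicCompletionIntegers, valued_toC981]
  exact v.intValuation_le_one x

/-- `𝓞 K` is dense in `𝒪_v`. -/
theorem integers_subset_closure981 (v : HeightOneSpectrum (𝓞 K)) :
    (v.adicCompletionIntegers K : Set (v.adicCompletion K))
      ⊆ closure (Set.range (toC981 v)) := by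
  intro x hx
  rw [mem_closure_iff]
  intro U hU hxU
  have hO : IsOpen (v.adicCompletionIntegers K : Set (v.adicCompletion K)) :=
    Valued.isOpen_valuationSubring _
  obtain ⟨k, hk⟩ := (HeightOneSpectrum.denseRange_algebraMap K v).exists_mem_open
    (hU.inter hO) ⟨x, hxU, hx⟩
  have hkU : algebraMap K (v.adicCompletion K) k ∈ U := hk.1
  have hk1 : v.valuation K k ≤ 1 := by
    rw [← valued_algebraMap981]
    exact (HeightOneSpectrum.mem_adicCompletionIntegers (𝓞 K) K v).1 hk.2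
  obtain ⟨γ, hγ⟩ := (Valued.mem_nhds (R := v.adicCompletion K)).1 (hU.mem_nhds hkU)
  have hγ0 : MonoidWithZeroHom.ValueGroup₀.embedding γ.1 ≠ 0 := by
    simp
  obtain ⟨a, ha⟩ := HeightOneSpectrum.exists_valuation_sub_lt_of_integer v hk1
    (Units.mk0 _ hγ0)
  refine ⟨toC981 v a, hγ ?_, a, rfl⟩
  show (Valued.v : Valuation (v.adicCompletion K) _).restrict
    (toC981 v a - algebraMap K (v.adicCompletion K) k) < γ.1
  rw [Valuation.restrict_lt_iff_lt_embedding]
  have e : toC981 v a - algebraMap K (v.adicCompletion K) k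
      = algebraMap K (v.adicCompletion K) (algebraMap (𝓞 K) K a - k) := by
    rw [map_sub]
  rw [e, valued_algebraMap981]
  exact ha

variable (𝔫 : Ideal (𝓞 K)) (v : HeightOneSpectrum (𝓞 K))

theorem idealClosure_subset981 :
    idealClosure 𝔫 v ⊆ (v.adicCompletionIntegers K : Set (v.adicCompletion K)) := by
  refine closure_minimal ?_ (Valued.isClosed_valuationSubring _)
  rintro _ ⟨x, -, rfl⟩
  exact toC981_mem_integers v x

theorem toC981_mem_idealClosure {a : 𝓞 K} (ha : a ∈ 𝔫) :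
    toC981 v a ∈ idealClosure 𝔫 v :=
  subset_closure ⟨a, ha, rfl⟩

theorem zero_mem_idealClosure981 : (0 : v.adicCompletion K) ∈ idealClosure 𝔫 v := by
  have := toC981_mem_idealClosure 𝔫 v (zero_mem 𝔫)
  simpa [toC981] using this

theorem add_mem_idealClosure981 {x y : v.adicCompletion K} (hx : x ∈ idealClosure 𝔫 v)
    (hy : y ∈ idealClosure 𝔫 v) : x + y ∈ idealClosure 𝔫 v := by
  refine map_mem_closure₂ continuous_add hx hy ?_
  rintro _ ⟨a, ha, rfl⟩ _ ⟨b, hb, rfl⟩
  exact ⟨a + b, 𝔫.add_mem ha hb, by simp⟩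

theorem neg_mem_idealClosure981 {x : v.adicCompletion K} (hx : x ∈ idealClosure 𝔫 v) :
    -x ∈ idealClosure 𝔫 v := by
  refine map_mem_closure continuous_neg hx ?_
  rintro _ ⟨a, ha, rfl⟩
  exact ⟨-a, 𝔫.neg_mem ha, by simp⟩

theorem mul_mem_idealClosure981 {x y : v.adicCompletion K}
    (hx : x ∈ v.adicCompletionIntegers K) (hy : y ∈ idealClosure 𝔫 v) :
    x * y ∈ idealClosure 𝔫 v := by
  refine map_mem_closure₂ continuous_mul (integers_subset_closure981 v hx) hy ?_
  rintro _ ⟨a, rfl⟩ _ ⟨b, hb, rfl⟩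
  exact ⟨a * b, 𝔫.mul_mem_left a hb, by simp [toC981]⟩

/-- The closure of `𝔫` as an additive subgroup of `K_v`. -/
def idealClosureAdd981 : AddSubgroup (v.adicCompletion K) where
  carrier := idealClosure 𝔫 v
  add_mem' := add_mem_idealClosure981 𝔫 v
  zero_mem' := zero_mem_idealClosure981 𝔫 v
  neg_mem' := neg_mem_idealClosure981 𝔫 v

theorem toC981_ne_zero {a : 𝓞 K} (ha : a ≠ 0) : toC981 v a ≠ 0 := by
  intro h
  apply ha
  have h1 : algebraMap (𝓞 K) K a = 0 :=
    (map_eq_zero_iff _ (algebraMap K (v.adicCompletion K)).injective).1 h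
  exact (map_eq_zero_iff _ (IsFractionRing.injective (𝓞 K) K)).1 h1

/-- `𝔫 𝒪_v` is open when `𝔫 ≠ 0`. -/
theorem isOpen_idealClosure981 (h𝔫 : 𝔫 ≠ ⊥) : IsOpen (idealClosure 𝔫 v) := by
  obtain ⟨a, ha, ha0⟩ := Submodule.exists_mem_ne_zero_of_ne_bot h𝔫
  have h0 := toC981_ne_zero v ha0
  have hopen : IsOpen ((fun x => toC981 v a * x) ''
      (v.adicCompletionIntegers K : Set (v.adicCompletion K))) :=
    (Homeomorph.mulLeft₀ _ h0).isOpenMap _ (Valued.isOpen_valuationSubring _)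
  have hsub : ((fun x => toC981 v a * x) ''
      (v.adicCompletionIntegers K : Set (v.adicCompletion K))) ⊆ idealClosure 𝔫 v := by
    rintro _ ⟨x, hx, rfl⟩
    show toC981 v a * x ∈ idealClosure 𝔫 v
    rw [mul_comm]
    exact mul_mem_idealClosure981 𝔫 v hx (toC981_mem_idealClosure 𝔫 v ha)
  have hmem : idealClosure 𝔫 v ∈ nhds (0 : v.adicCompletion K) :=
    Filter.mem_of_superset (hopen.mem_nhds ⟨0, zero_mem _, by simp⟩) hsub
  exact AddSubgroup.isOpen_of_mem_nhds (idealClosureAdd981 𝔫 v) hmem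

/-- `𝔫 𝒪_v = 𝒪_v` when `v ∤ 𝔫`. -/
theorem idealClosure_eq_integers981 (hv : ¬ v.asIdeal ∣ 𝔫) :
    idealClosure 𝔫 v = (v.adicCompletionIntegers K : Set (v.adicCompletion K)) := by
  refine Set.Subset.antisymm (idealClosure_subset981 𝔫 v) ?_
  have hle : ¬ 𝔫 ≤ v.asIdeal := fun h => hv (Ideal.dvd_iff_le.2 h)
  obtain ⟨a, ha, hav⟩ := Set.not_subset.1 hle
  have h1 : Valued.v (toC981 v a) = 1 := by
    rw [valued_toC981]
    exact HeightOneSpectrum.intValuation_eq_one_iff.2 hav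
  have h0 : toC981 v a ≠ 0 := by
    intro h
    rw [h, map_zero] at h1
    exact zero_ne_one h1
  intro x hx
  have hx' : (toC981 v a)⁻¹ * x ∈ v.adicCompletionIntegers K := by
    have hx1 : Valued.v x ≤ 1 := (HeightOneSpectrum.mem_adicCompletionIntegers (𝓞 K) K v).1 hx
    rw [HeightOneSpectrum.mem_adicCompletionIntegers, map_mul, map_inv₀, h1, inv_one, one_mul]
    exact hx1
  have := mul_mem_idealClosure981 𝔫 v hx' (toC981_mem_idealClosure 𝔫 v ha)
  rwa [mul_comm, ← mul_assoc, mul_inv_cancel₀ h0, one_mul] at this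

/-! ## 2. Labels in `𝓞 K ⧸ 𝔫` -/

/-- Every element of `𝒪_v` is congruent modulo `𝔫 𝒪_v` to an element of `𝓞 K`. -/
theorem exists_approx981 (h𝔫 : 𝔫 ≠ ⊥) {x : v.adicCompletion K}
    (hx : x ∈ v.adicCompletionIntegers K) :
    ∃ a : 𝓞 K, x - toC981 v a ∈ idealClosure 𝔫 v := by
  have hcl := integers_subset_closure981 v hx
  have hU : IsOpen {y : v.adicCompletion K | x - y ∈ idealClosure 𝔫 v} :=
    (isOpen_idealClosure981 𝔫 v h𝔫).preimage (continuous_const.sub continuous_id)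
  have hxU : x ∈ {y : v.adicCompletion K | x - y ∈ idealClosure 𝔫 v} := by
    show x - x ∈ idealClosure 𝔫 v
    rw [sub_self]
    exact zero_mem_idealClosure981 𝔫 v
  obtain ⟨y, hyU, a, rfl⟩ := mem_closure_iff.1 hcl _ hU hxU
  exact ⟨a, hyU⟩

open Classical in
/-- The label of an element of `K_v` in `𝓞 K ⧸ 𝔫` (junk outside `𝒪_v`). -/
def lab981 (x : v.adicCompletion K) : 𝓞 K ⧸ 𝔫 :=
  if h : ∃ a : 𝓞 K, x - toC981 v a ∈ idealClosure 𝔫 v then
    Ideal.Quotient.mk 𝔫 (Classical.choose h) else 0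

/-- Integral elements with the same label are congruent modulo `𝔫 𝒪_v`. -/
theorem sub_mem_of_lab_eq981 (h𝔫 : 𝔫 ≠ ⊥) {x y : v.adicCompletion K}
    (hx : x ∈ v.adicCompletionIntegers K) (hy : y ∈ v.adicCompletionIntegers K)
    (h : lab981 𝔫 v x = lab981 𝔫 v y) : x - y ∈ idealClosure 𝔫 v := by
  have hx' := exists_approx981 𝔫 v h𝔫 hx
  have hy' := exists_approx981 𝔫 v h𝔫 hy
  unfold lab981 at h
  rw [dif_pos hx', dif_pos hy', Ideal.Quotient.eq] at h
  have h1 := Classical.choose_spec hx'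
  have h2 := Classical.choose_spec hy'
  have h3 : toC981 v (Classical.choose hx' - Classical.choose hy') ∈ idealClosure 𝔫 v :=
    toC981_mem_idealClosure 𝔫 v h
  have e : x - y = (x - toC981 v (Classical.choose hx'))
      + (toC981 v (Classical.choose hx' - Classical.choose hy')
        + -(y - toC981 v (Classical.choose hy'))) := by
    simp only [toC981, map_sub]
    ring
  rw [e]
  exact add_mem_idealClosure981 𝔫 v h1
    (add_mem_idealClosure981 𝔫 v h3 (neg_mem_idealClosure981 𝔫 v h2))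

/-! ## 3. Components of products and inverses -/

theorem coe_mul981 (g h : G K) :
    ((g * h : G K) : Matrix (Fin 2) (Fin 2) (Adl K))
      = (g : Matrix (Fin 2) (Fin 2) (Adl K)) * (h : Matrix (Fin 2) (Fin 2) (Adl K)) := rfl

theorem finComp_mul981 (g h : G K) : finComp v (g * h) = finComp v g * finComp v h := by
  rw [T5.finComp_eq_map, T5.finComp_eq_map, T5.finComp_eq_map, coe_mul981, Matrix.map_mul]

theorem finComp_one981 : finComp v (1 : G K) = 1 := by
  rw [T5.finComp_eq_map]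
  show (1 : Matrix (Fin 2) (Fin 2) (Adl K)).map (T5.finHom v) = 1
  rw [Matrix.map_one _ (map_zero _) (map_one _)]

theorem finComp_inv_mul981 (g : G K) : finComp v g⁻¹ * finComp v g = 1 := by
  rw [← finComp_mul981, inv_mul_cancel, finComp_one981]

/-- The component at the infinite place `w`, as a ring homomorphism. -/
def infW981 (w : InfinitePlace K) : Adl K →+* w.Completion :=
  (Pi.evalRingHom (fun v : InfinitePlace K => v.Completion) w).comp
    (RingHom.fst (InfiniteAdeleRing K) (FiniteAdeleRing (𝓞 K) K))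

theorem trivAtInf_iff981 (w : InfinitePlace K) (g : G K) :
    TrivAtInf w g ↔ (g : Matrix (Fin 2) (Fin 2) (Adl K)).map (infW981 w) = 1 := by
  constructor
  · intro h
    exact Matrix.ext fun i j => h i j
  · intro h i j
    have := congrFun (congrFun h i) j
    exact this

theorem trivAtInf_inv_mul981 (w : InfinitePlace K) {g h : G K} (hg : TrivAtInf w g)
    (hh : TrivAtInf w h) : TrivAtInf w (g⁻¹ * h) := by
  rw [trivAtInf_iff981] at hg hh ⊢
  have e1 : ((g⁻¹ : G K) : Matrix (Fin 2) (Fin 2) (Adl K)).map (infW981 w)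
      * (g : Matrix (Fin 2) (Fin 2) (Adl K)).map (infW981 w) = 1 := by
    rw [← Matrix.map_mul, ← coe_mul981, inv_mul_cancel]
    show (1 : Matrix (Fin 2) (Fin 2) (Adl K)).map (infW981 w) = 1
    rw [Matrix.map_one _ (map_zero _) (map_one _)]
  rw [hg, mul_one] at e1
  rw [coe_mul981, Matrix.map_mul, e1, hh, mul_one]

/-! ## 4. The congruence -/

/-- `h` is trivial at infinity and integral with integral inverse at every finite place. -/
def IsHat981 (h : G K) : Prop :=
  (∀ w : InfinitePlace K, TrivAtInf w h) ∧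
    ∀ v : HeightOneSpectrum (𝓞 K), IsIntegralAt v h ∧ IsIntegralAt v h⁻¹

/-- A sum of products (integral) · (element of `𝔫 𝒪_v`) lies in `𝔫 𝒪_v`. -/
theorem mul_sub_entry981 (A D : Matrix (Fin 2) (Fin 2) (v.adicCompletion K))
    (hA : ∀ i j, A i j ∈ v.adicCompletionIntegers K)
    (hD : ∀ i j, D i j ∈ idealClosure 𝔫 v) (i j : Fin 2) :
    (A * D) i j ∈ idealClosure 𝔫 v := by
  rw [Matrix.mul_apply, Fin.sum_univ_two]
  exact add_mem_idealClosure981 𝔫 v (mul_mem_idealClosure981 𝔫 v (hA i 0) (hD 0 j))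
    (mul_mem_idealClosure981 𝔫 v (hA i 1) (hD 1 j))

/-- Two elements of `GL₂(Ô)` which are congruent modulo `𝔫` at every finite place differ by an
element of `U(𝔫)`. -/
theorem inLevelGroup_of_congr981 {τ h : G K} (hτ : IsHat981 τ) (hh : IsHat981 h)
    (hc : ∀ (v : HeightOneSpectrum (𝓞 K)) (i j : Fin 2),
      finComp v h i j - finComp v τ i j ∈ idealClosure 𝔫 v) :
    InLevelGroup 𝔫 (τ⁻¹ * h) := by
  refine ⟨fun w => trivAtInf_inv_mul981 w (hτ.1 w) (hh.1 w), fun v i j => ⟨?_, ?_⟩⟩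
  · have e : finComp v (τ⁻¹ * h) - 1 = finComp v τ⁻¹ * (finComp v h - finComp v τ) := by
      rw [finComp_mul981, mul_sub, finComp_inv_mul981]
    rw [e]
    exact mul_sub_entry981 𝔫 v _ _ (fun i j => (hτ.2 v).2 i j) (fun i j => hc v i j) i j
  · have e0 : (τ⁻¹ * h)⁻¹ = h⁻¹ * τ := by
      rw [mul_inv_rev, inv_inv]
    have e : finComp v (τ⁻¹ * h)⁻¹ - 1 = finComp v h⁻¹ * (finComp v τ - finComp v h) := by
      rw [e0, finComp_mul981, mul_sub, finComp_inv_mul981]
    rw [e]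
    refine mul_sub_entry981 𝔫 v _ _ (fun i j => (hh.2 v).2 i j) (fun i j => ?_) i j
    have := neg_mem_idealClosure981 𝔫 v (hc v i j)
    rwa [neg_sub] at this

/-! ## 5. The leaf -/

/-- The label of `h`: the labels of its entries at the places of `S`. -/
def glab981 (S : Finset (HeightOneSpectrum (𝓞 K))) (h : G K) :
    S → Fin 2 → Fin 2 → 𝓞 K ⧸ 𝔫 :=
  fun v i j => lab981 𝔫 v.1 (finComp v.1 h i j)

open Classical in
/-- A representative of a label. -/
def rep981 (S : Finset (HeightOneSpectrum (𝓞 K))) (ℓ : S → Fin 2 → Fin 2 → 𝓞 K ⧸ 𝔫) : G K :=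
  if h : ∃ g : G K, IsHat981 g ∧ glab981 𝔫 S g = ℓ then Classical.choose h else 1

theorem rep981_spec (S : Finset (HeightOneSpectrum (𝓞 K))) {h : G K} (hh : IsHat981 h) :
    IsHat981 (rep981 𝔫 S (glab981 𝔫 S h)) ∧
      glab981 𝔫 S (rep981 𝔫 S (glab981 𝔫 S h)) = glab981 𝔫 S h := by
  have hex : ∃ g : G K, IsHat981 g ∧ glab981 𝔫 S g = glab981 𝔫 S h := ⟨h, hh, rfl⟩
  unfold rep981
  rw [dif_pos hex]
  exact Classical.choose_spec hex

/-- **LEAF PROJ.2b = FIN-INDEX**, VERBATIM. -/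
theorem finIndexC981 (K : Type) [Field K] [NumberField K] : H193.FinIndexC K := by
  intro 𝔑 h𝔑
  classical
  have hfinq : Finite (𝓞 K ⧸ 𝔑) := Ideal.finiteQuotientOfFreeOfNeBot 𝔑 h𝔑
  let S : Finset (HeightOneSpectrum (𝓞 K)) := (Ideal.finite_factors h𝔑).toFinset
  have hS : ∀ v : HeightOneSpectrum (𝓞 K), v ∈ S ↔ v.asIdeal ∣ 𝔑 := fun v => by
    simp [S]
  have hfinL : Finite (S → Fin 2 → Fin 2 → 𝓞 K ⧸ 𝔑) := inferInstance
  refine ⟨(Set.finite_range (rep981 𝔑 S)).toFinset, fun h h1 h2 => ?_⟩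
  have hh : IsHat981 h := ⟨h1, h2⟩
  obtain ⟨hτ, hlab⟩ := rep981_spec 𝔑 S hh
  refine ⟨rep981 𝔑 S (glab981 𝔑 S h), ?_, ?_⟩
  · rw [Set.Finite.mem_toFinset]
    exact ⟨_, rfl⟩
  · refine inLevelGroup_of_congr981 𝔑 hτ hh fun v i j => ?_
    by_cases hv : v.asIdeal ∣ 𝔑
    · have hvS : v ∈ S := (hS v).2 hv
      have hl := congrFun (congrFun (congrFun hlab ⟨v, hvS⟩) i) j
      exact sub_mem_of_lab_eq981 𝔑 v h𝔑 ((hh.2 v).1 i j) ((hτ.2 v).1 i j) hl.symm
    · rw [idealClosure_eq_integers981 𝔑 v hv]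
      exact sub_mem ((hh.2 v).1 i j) ((hτ.2 v).1 i j)

end Fermat.Agent.LT.T7.H981

end
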